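/-
S44, block X, ASSEMBLY of NodeSlope (plan by helper132): exact statements of the three interface
lemmas (R), (B), (C) between the conclusion of `PL.pl_main_sheets` and the conclusion of `NodeSlope`.
Final files: `Slope/RedG.lean` (R), `Slope/End.lean` (B), `Slope/Trans.lean` (C), namespace
`Fermat.Agent.S44.X.Slope`, same names.
-/
import Fermat.Agent.S44.X.Cover.Inst
import Fermat.Agent.S44.X.Model.Centre
import Fermat.Agent.S44.X.Red.API
import Fermat.Agent.S44.X.Top

set_option autoImplicit false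

noncomputable section

namespace Fermat.Agent.S44.X.Slope.Plan

open ModularCurve AlgebraicCurve Fermat.Agent.S24 Fermat.Agent.GAL Fermat.Agent.S44.X.Cover
  Fermat.Agent.S44.X.Model Fermat.Agent.S36.BP Fermat.Agent.S18

/-- (R) two elements of `FN L` which are congruent modulo the maximal ideal of the Gauss ring have
the same reductions. -/
theorem isRed_congr {A : ValuationSubring S44.Qb} {p : ℕ} (hp : p.Prime)
    (hA : A.LiesOverPrime p) {L : ℕ} {G : ValuationSubring (FN L)} (hG : IsGaussFN A L G) {y r : FN L} (hr : G.valuation r = 1) (hy : G.valuation (y - r) < 1)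
    {rbar : LaurentSeries (S44.kA A)} (h : S44.IsRed A r rbar) : S44.IsRed A y rbar := sorry

/-- (B) from the sheet `Wv0` of `FY K L W` to the Gauss ring `G` of `FN L`. -/
theorem end_val {K : Type} [Field K] [Algebra ℚ K] [Algebra K Kbar] {p L : ℕ}
    {W : LaurentSeries Kbar} (G : ValuationSubring (FN L)) (Wv0 : ValuationSubring (FY K L W))
    (Wb : ValuationSubring (FYb L W))
    (h1 : ∀ z : FN L, algebraMap (FN L) (FYb L W) z ∈ Wb ↔ z ∈ G)
    (h2 : ∀ z : FY K L W, z ∈ Wv0 ↔ bcY K L W z ∈ Wb)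
    (h3 : ∀ b : FYb L W, b ≠ 0 → ∃ b₀ : FN L, b₀ ≠ 0 ∧
      Wb.valuation (b / algebraMap (FN L) (FYb L W) b₀ - 1) < 1)
    {u g : FY K L W} {U₁ : FN L} {b : FYb L W} (hb : b ≠ 0)
    (hub : bcY K L W u = algebraMap (FN L) (FYb L W) U₁ * b ^ p)
    {d r : FK K L} (hd : d ≠ 0) (hg : Wv0.valuation g = 1)
    (hr : G.valuation (bcX K L r) = 1)
    (h : Wv0.valuation (u / (algebraMap (FK K L) (FY K L W) d * g ^ p) -
      algebraMap (FK K L) (FY K L W) r) < 1) :
    ∃ b₀ g₀ : FN L, b₀ ≠ 0 ∧ g₀ ≠ 0 ∧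
      G.valuation (U₁ * b₀ ^ p / (bcX K L d * g₀ ^ p) - bcX K L r) < 1 := sorry

/-- (C) from the Gauss ring to the orders at the place `w`. -/
theorem trans_ord (hRed : NodeRed) {p M : ℕ} [NeZero p] [NeZero M] (hp : p.Prime) (hpM : ¬ p ∣ M)
    {A : ValuationSubring S44.Qb} (hA : A.LiesOverPrime p) {G : ValuationSubring (FN (M * p))}
    (hG : IsGaussFN A (M * p) G) {K : Type} [Field K] [Algebra ℚ K] [Algebra K Kbar]
    {R : Subring (FK K (M * p))} {w : Place (S44.kA A) (S44.Fk A M)}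
    (hC : Centred (algebraMap K S44.Qb) R w) {r : FK K (M * p)} (hr : RUnit R r)
    (hrG : G.valuation (bcX K (M * p) r) = 1) {U₁ b₀ g₀ X : FN (M * p)} (hb₀ : b₀ ≠ 0)
    (hg₀ : g₀ ≠ 0) (n k : ℤ)
    (h : G.valuation (U₁ * b₀ ^ p / ((p : FN (M * p)) ^ n * X ^ k * g₀ ^ p) -
      bcX K (M * p) r) < 1)
    {ubar xbar : S44.Fk A M} (hu : S44.IsRed A U₁ (ubar : LaurentSeries (S44.kA A)))
    (hx : S44.IsRed A X (xbar : LaurentSeries (S44.kA A))) :
    (p : ℤ) ∣ w.ord ubar - k * w.ord xbar := sorry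

end Fermat.Agent.S44.X.Slope.Plan

end
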